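import Mathlib
import Fermat.Agent.SW.K1.Leaves
import Fermat.Agent.SW.K1c.EParam
import Fermat.Agent.SW.K1I.Twist
import Fermat.Agent.SW.K1i.TatePsi3
import Fermat.Agent.EC.Tor.Main

/-!
# MOONSHOT S52 (Program F), block K1, leaf I (GENERIC MOD-3): the literal `Leaves.LeafI`

`Leaves.LeafI` (the 3-division polynomial of the generic curve `y² = x³ + a X x + b X` has no root
in `Ω = Qb(X, x(E[5]))`) from ONE input of leaf E, `LeafE5`:

  for a point `P₀` of exact order `5` and every `σ ∈ Aut(Fb / ℚ(X))` which is trivial on the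
  constants `Qb` and fixes `x(P₀)`, the fifth power `σ ^ 5` is the identity on `Ω`

(the quotient character `ψ` of `Gal(Fb / Qb(t))` on `E[5] / ⟨P₀⟩` is trivial, so `σ` acts on `E[5]`
through `± [[1, *], [0, 1]]`).

Proof.  Put `E` in Tate normal form at `P₀ = (x₀, y₀)` (`K1c.TateNF.exists_tateNF`, over `Fb`):
`C • E = tateNF t`, `C.r = x₀`.  By `K1c.EParam`, `T := Qb(t) = Qb(X, x₀)`, `u² ∈ T` and `t` is
transcendental over `Qb`.  A root `x ∈ Ω` of `psi_3(E)` gives the root `x' = (x - x₀) / u²` of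
`psi_3 (tateNF t)` (`K1I.Twist.psi3_variableChange`).  Every `σ ∈ Gal(Fb / T)` is an
`ℚ(X)`-automorphism, trivial on `Qb`, fixing `x₀`: so `σ⁵ x' = x'` by `LeafE5`; the `σ`-orbit of
`x'` consists of roots of a quartic, so it has `1` or `5`, hence `1` element.  So `x' ∈ T = Qb(t)`
(`Fb / T` is Galois), contradicting `K1i.TatePsi3.tatePsi3_ne_zero_of_mem_adjoin`.

Branch-only work.
-/

set_option autoImplicit false
set_option linter.unusedSectionVars false

open Polynomial IntermediateField WeierstrassCurve WeierstrassCurve.Affine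

namespace Fermat.Agent.SW.LeafI.Main

open Fermat.Agent.SW.Contracts Fermat.Agent.SW.K1 Fermat.Agent.SW.K1.Leaves
open Fermat.Agent.SW.K1c Fermat.Agent.SW.K1i.TatePsi3 Fermat.Agent.S51.Three

/-- **The input from leaf E.** For a point `P₀` of exact order `5` of the generic curve over `Fb`
and an automorphism `σ` of `Fb / ℚ(X)` trivial on the constants and fixing `x(P₀)`, `σ ^ 5` is
trivial on `Ω`. -/
def LeafE5 : Prop :=
  ∀ (Fb : Type) [Field Fb] [Algebra F0 Fb] [Algebra Qb Fb] [CharZero Fb] [DecidableEq Fb]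
    [IsAlgClosure F0 Fb] (a b : ℚ), a ≠ 0 → b ≠ 0 → 4 * a ^ 3 + 27 * b ^ 2 ≠ 0 →
    ∀ P₀ : ((genW (lamC a) (lamC b)).toAffine⁄Fb).Point, addOrderOf P₀ = 5 →
    ∀ σ : Fb ≃ₐ[F0] Fb, res Fb σ = 1 → σ (xOf P₀) = xOf P₀ →
    ∀ z ∈ OmegaF Fb (lamC a) (lamC b) 5, σ (σ (σ (σ (σ z)))) = z

/-- **The input from leaf E, weak form**: the same for SOME point `P₀` of exact order `5`. -/
def LeafE5x : Prop :=
  ∀ (Fb : Type) [Field Fb] [Algebra F0 Fb] [Algebra Qb Fb] [CharZero Fb] [DecidableEq Fb]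
    [IsAlgClosure F0 Fb] (a b : ℚ), a ≠ 0 → b ≠ 0 → 4 * a ^ 3 + 27 * b ^ 2 ≠ 0 →
    ∃ P₀ : ((genW (lamC a) (lamC b)).toAffine⁄Fb).Point, addOrderOf P₀ = 5 ∧
    ∀ σ : Fb ≃ₐ[F0] Fb, res Fb σ = 1 → σ (xOf P₀) = xOf P₀ →
    ∀ z ∈ OmegaF Fb (lamC a) (lamC b) 5, σ (σ (σ (σ (σ z)))) = z

/-- **The input from leaf E, Kummer form** (the Lüroth route): for some point `P₀` of exact order
`5` there is `r ∈ Fb` with `r ^ 5 ∈ Qb(X, x(P₀))` and `Ω ⊆ Qb(r)`. -/
def LeafE5K : Prop :=
  ∀ (Fb : Type) [Field Fb] [Algebra F0 Fb] [Algebra Qb Fb] [CharZero Fb] [DecidableEq Fb]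
    [IsAlgClosure F0 Fb] (a b : ℚ), a ≠ 0 → b ≠ 0 → 4 * a ^ 3 + 27 * b ^ 2 ≠ 0 →
    ∃ (P₀ : ((genW (lamC a) (lamC b)).toAffine⁄Fb).Point) (r : Fb), addOrderOf P₀ = 5 ∧
      r ^ 5 ∈ IntermediateField.adjoin Qb ({algebraMap F0 Fb RatFunc.X, xOf P₀} : Set Fb) ∧
      ∀ z ∈ OmegaF Fb (lamC a) (lamC b) 5, z ∈ IntermediateField.adjoin Qb ({r} : Set Fb)

/-! ### Orbits of length dividing five inside a set of at most four elements -/

theorem fixed_of_iterate_five {α : Type*} (f : α → α) (x : α) (S : Finset α) (hS : S.card ≤ 4)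
    (hmem : ∀ n : ℕ, f^[n] x ∈ S) (h5 : f^[5] x = x) : f x = x := by
  classical
  have hper : Function.IsPeriodicPt f 5 x := h5
  have hdvd := hper.minimalPeriod_dvd
  rcases (Nat.dvd_prime (by norm_num : Nat.Prime 5)).mp hdvd with h1 | h1
  · exact Function.minimalPeriod_eq_one_iff_isFixedPt.mp h1
  · exfalso
    have hinj := Function.iterate_injOn_Iio_minimalPeriod (f := f) (x := x)
    rw [h1] at hinj
    have hcard : ((Finset.range 5).image fun n => f^[n] x).card = 5 := by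
      rw [Finset.card_image_of_injOn, Finset.card_range]
      intro i hi j hj hij
      exact hinj (by simpa using hi) (by simpa using hj) hij
    have hsub : ((Finset.range 5).image fun n => f^[n] x) ⊆ S := by
      intro y hy
      obtain ⟨n, -, rfl⟩ := Finset.mem_image.mp hy
      exact hmem n
    have := Finset.card_le_card hsub
    omega

/-! ### The field `Fb` over the constants and the parameter -/

section Field

variable {Fb : Type} [Field Fb] [Algebra F0 Fb] [Algebra Qb Fb] [CharZero Fb]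

theorem algebraMap_C (a : ℚ) : algebraMap F0 Fb (RatFunc.C a) = algebraMap Qb Fb (a : Qb) := by
  have h : (RatFunc.C a : F0) = ((a : ℚ) : F0) := by
    have := map_ratCast (RatFunc.C : ℚ →+* F0) a
    rwa [Rat.cast_id] at this
  rw [h, map_ratCast, map_ratCast]

theorem algebraMap_lamC (a : ℚ) :
    algebraMap F0 Fb (lamC a) = algebraMap Qb Fb (a : Qb) * algebraMap F0 Fb RatFunc.X := by
  rw [lamC, map_mul, algebraMap_C]

/-- An intermediate field of `Fb / Qb` containing the parameter contains `ℚ(X)`. -/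
theorem algebraMap_mem_of_X_mem (K : IntermediateField Qb Fb)
    (h : algebraMap F0 Fb RatFunc.X ∈ K) (f : F0) : algebraMap F0 Fb f ∈ K := by
  have hpoly : ∀ p : ℚ[X], algebraMap F0 Fb (algebraMap ℚ[X] F0 p) ∈ K := by
    intro p
    have e : algebraMap F0 Fb (algebraMap ℚ[X] F0 p) = aeval (algebraMap F0 Fb RatFunc.X) p := by
      have : (algebraMap F0 Fb).comp (algebraMap ℚ[X] F0) =
          (aeval (algebraMap F0 Fb RatFunc.X) : ℚ[X] →ₐ[ℚ] Fb).toRingHom := by
        apply Polynomial.ringHom_ext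
        · intro c
          simp only [RingHom.comp_apply, AlgHom.toRingHom_eq_coe, RingHom.coe_coe, aeval_C]
          rw [RatFunc.algebraMap_C, algebraMap_C, map_ratCast, eq_ratCast]
        · simp only [RingHom.comp_apply, AlgHom.toRingHom_eq_coe, RingHom.coe_coe, aeval_X,
            RatFunc.algebraMap_X]
      exact congrArg (fun g : ℚ[X] →+* Fb => g p) this
    rw [e, aeval_eq_sum_range]
    refine K.sum_mem fun i _ => ?_
    rw [Algebra.smul_def, eq_ratCast]
    exact K.mul_mem (SubfieldClass.ratCast_mem K _) (pow_mem h i)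
  induction f using RatFunc.induction_on with
  | f p q _ =>
    rw [map_div₀]
    exact K.div_mem (hpoly p) (hpoly q)

instance isScalarTower_rat_Qb :
    @IsScalarTower ℚ Qb Fb Algebra.toSMul Algebra.toSMul Algebra.toSMul :=
  IsScalarTower.of_algebraMap_eq' (Subsingleton.elim _ _)

/-- The parameter is transcendental over the constants. -/
theorem transcendental_X : Transcendental Qb (algebraMap F0 Fb RatFunc.X) := by
  have h1 : Transcendental ℚ (RatFunc.X : F0) := by
    rw [← RatFunc.algebraMap_X]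
    exact (transcendental_algebraMap_iff (IsFractionRing.injective ℚ[X] F0)).mpr
      (Polynomial.transcendental_X ℚ)
  have h2 : Transcendental ℚ (algebraMap F0 Fb RatFunc.X) :=
    (transcendental_algebraMap_iff (algebraMap F0 Fb).injective).mpr h1
  intro h
  have : Algebra.IsAlgebraic ℚ Qb := isAlgClosure_rat.isAlgebraic
  exact h2 (h.restrictScalars ℚ)

/-- `Fb` is Galois over an intermediate field of `Fb / Qb` containing the parameter. -/
theorem mem_of_forall_fixed [IsAlgClosure F0 Fb] (T : IntermediateField Qb Fb)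
    (hT : algebraMap F0 Fb RatFunc.X ∈ T) (z : Fb) (hz : ∀ σ : Fb ≃ₐ[T] Fb, σ z = z) : z ∈ T := by
  have hF0 := algebraMap_mem_of_X_mem T hT
  let _ : Algebra F0 T := ((algebraMap F0 Fb).codRestrict T hF0).toAlgebra
  have : IsScalarTower F0 T Fb := IsScalarTower.of_algebraMap_eq fun f => rfl
  have : Algebra.IsAlgebraic F0 Fb := IsAlgClosure.isAlgebraic
  have : Algebra.IsAlgebraic T Fb := Algebra.IsAlgebraic.tower_top (K := F0) T
  have : IsAlgClosed Fb := IsAlgClosure.isAlgClosed F0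
  have : IsAlgClosure T Fb := ⟨inferInstance, inferInstance⟩
  have : IsGalois T Fb := IsAlgClosure.isGalois T Fb
  have := (InfiniteGalois.mem_bot_iff_fixed (k := T) (K := Fb) z).mpr hz
  obtain ⟨y, rfl⟩ := IntermediateField.mem_bot.mp this
  exact y.2

end Field

/-! ### `psi_3` of the Tate normal form -/

theorem psi3_tateNF {K : Type*} [Field K] (t z : K) :
    psi3 (TateNF.tateNF t).toAffine z = tatePsi3 t z := by
  simp only [psi3, tatePsi3, TateNF.tateNF, WeierstrassCurve.toAffine, WeierstrassCurve.b₂,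
    WeierstrassCurve.b₄, WeierstrassCurve.b₆, WeierstrassCurve.b₈]
  ring

/-- A ring automorphism fixing `t` permutes the roots of `psi_3 (tateNF t)`. -/
theorem tatePsi3_iterate {K : Type*} [Field K] (σ : K ≃+* K) (t z : K) (ht : σ t = t)
    (hz : tatePsi3 t z = 0) (n : ℕ) : tatePsi3 t ((⇑σ)^[n] z) = 0 := by
  induction n with
  | zero => simpa using hz
  | succ n ih =>
    rw [Function.iterate_succ_apply']
    have := map_tatePsi3 (σ : K →+* K) t ((⇑σ)^[n] z)
    rw [ih, map_zero] at this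
    rw [RingEquiv.coe_toRingHom, ht] at this
    exact this.symm

/-! ### Leaf I -/

/-- `Fb` is algebraic over an intermediate field of `Fb / Qb` containing the parameter. -/
theorem isAlgebraic_of_X_mem {Fb : Type} [Field Fb] [Algebra F0 Fb] [Algebra Qb Fb] [CharZero Fb]
    [IsAlgClosure F0 Fb] (T : IntermediateField Qb Fb) (hT : algebraMap F0 Fb RatFunc.X ∈ T) :
    Algebra.IsAlgebraic T Fb := by
  have hF0 := algebraMap_mem_of_X_mem T hT
  let _ : Algebra F0 T := ((algebraMap F0 Fb).codRestrict T hF0).toAlgebra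
  have : IsScalarTower F0 T Fb := IsScalarTower.of_algebraMap_eq fun f => rfl
  have : Algebra.IsAlgebraic F0 Fb := IsAlgClosure.isAlgebraic
  exact Algebra.IsAlgebraic.tower_top (K := F0) T

section TateData

variable {Fb : Type} [Field Fb] [Algebra F0 Fb] [Algebra Qb Fb] [CharZero Fb]

/-- The generic curve over `Fb`, in short form with the coefficients `a X`, `b X`. -/
theorem genW_baseChange (a b : ℚ) :
    ((genW (lamC a) (lamC b)).toAffine⁄Fb) =
      EParamCore.short (algebraMap Qb Fb (a : Qb) * algebraMap F0 Fb RatFunc.X)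
        (algebraMap Qb Fb (b : Qb) * algebraMap F0 Fb RatFunc.X) := by
  apply WeierstrassCurve.ext <;>
    simp [EParamCore.short, genW, WeierstrassCurve.baseChange, WeierstrassCurve.map,
      algebraMap_lamC]

/-- The generic curve is elliptic. -/
theorem short_Δ_ne_zero (a b : ℚ) (ha : a ≠ 0) :
    (EParamCore.short (algebraMap Qb Fb (a : Qb) * algebraMap F0 Fb RatFunc.X)
      (algebraMap Qb Fb (b : Qb) * algebraMap F0 Fb RatFunc.X)).Δ ≠ 0 := by
  have hlamtr : Transcendental Qb (algebraMap F0 Fb RatFunc.X) := transcendental_X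
  set lam : Fb := algebraMap F0 Fb RatFunc.X with hlam
  have hlam0 : lam ≠ 0 := (_root_.map_ne_zero _).mpr RatFunc.X_ne_zero
  have haQ : (a : Qb) ≠ 0 := Rat.cast_ne_zero.mpr ha
  have e : (EParamCore.short (algebraMap Qb Fb (a : Qb) * lam) (algebraMap Qb Fb (b : Qb) * lam)).Δ
      = -16 * lam ^ 2 * algebraMap Qb Fb (4 * (a : Qb) ^ 3)
        * (lam + algebraMap Qb Fb (27 * (b : Qb) ^ 2 / (4 * (a : Qb) ^ 3))) := by
    simp only [EParamCore.short, WeierstrassCurve.Δ, WeierstrassCurve.b₂, WeierstrassCurve.b₄,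
      WeierstrassCurve.b₆, WeierstrassCurve.b₈, map_mul, map_pow, map_div₀, map_ofNat]
    have : algebraMap Qb Fb (a : Qb) ≠ 0 := (_root_.map_ne_zero _).mpr haQ
    field_simp
    ring
  rw [e]
  refine mul_ne_zero (mul_ne_zero (mul_ne_zero (by norm_num) (pow_ne_zero _ hlam0)) ?_) ?_
  · rw [_root_.map_ne_zero]
    exact mul_ne_zero (by norm_num) (pow_ne_zero _ haQ)
  · intro h0
    apply hlamtr
    have : lam = algebraMap Qb Fb (-(27 * (b : Qb) ^ 2 / (4 * (a : Qb) ^ 3))) := by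
      rw [map_neg]
      exact eq_neg_of_add_eq_zero_left h0
    rw [this]
    exact isAlgebraic_algebraMap _

variable [DecidableEq Fb]

/-- The generic curve has a point of exact order five over `Fb`. -/
theorem exists_point_of_order_five (Fb : Type) [Field Fb] [Algebra F0 Fb] [Algebra Qb Fb]
    [CharZero Fb] [DecidableEq Fb] [IsAlgClosure F0 Fb] (a b : ℚ) (ha : a ≠ 0) :
    ∃ P₀ : ((genW (lamC a) (lamC b)).toAffine⁄Fb).Point, addOrderOf P₀ = 5 := by
  have hAC : IsAlgClosed Fb := IsAlgClosure.isAlgClosed F0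
  have hΔ : ((genW (lamC a) (lamC b)).toAffine⁄Fb).Δ ≠ 0 := by
    rw [genW_baseChange]
    exact short_Δ_ne_zero a b ha
  obtain ⟨P₀, hP₀⟩ := Fermat.Agent.EC.Tor.Main.exists_addOrderOf_eq_prime_pow
    ((genW (lamC a) (lamC b)).toAffine⁄Fb) hΔ (l := 5) (by norm_num) (by norm_num) 1
  rw [pow_one] at hP₀
  exact ⟨P₀, hP₀⟩

/-- A point of exact order five is affine. -/
theorem exists_some_of_order_five {W : WeierstrassCurve Fb} (P₀ : W.toAffine.Point)
    (hP₀ : addOrderOf P₀ = 5) : ∃ x₀ y₀ h, P₀ = Point.some x₀ y₀ h := by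
  cases P₀ with
  | zero =>
    exfalso
    have : addOrderOf (0 : W.toAffine.Point) = 1 := addOrderOf_zero
    change addOrderOf (0 : W.toAffine.Point) = 5 at hP₀
    omega
  | some x y h => exact ⟨_, _, _, rfl⟩

/-- **Tate data** of a point `(x₀, y₀)` of exact order five of the generic curve: a change of
variables `C` with `C.r = x₀` and a parameter `t`, transcendental over the constants, with
`C • E = tateNF t`, `t (t² - 11 t - 1) ≠ 0` and `X, x₀, u² ∈ Qb(t)`. -/
theorem exists_tateData' (a b : ℚ) (ha : a ≠ 0) (hb : b ≠ 0) {x₀ y₀ : Fb}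
    (h₀ : ((genW (lamC a) (lamC b)).toAffine⁄Fb).Nonsingular x₀ y₀)
    (hP₀ : addOrderOf
      (Point.some x₀ y₀ h₀ : ((genW (lamC a) (lamC b)).toAffine⁄Fb).Point) = 5) :
    ∃ (C : VariableChange Fb) (t : Fb), C.r = x₀ ∧ t ≠ 0 ∧ t ^ 2 - 11 * t - 1 ≠ 0 ∧
      C • EParamCore.short (algebraMap Qb Fb (a : Qb) * algebraMap F0 Fb RatFunc.X)
        (algebraMap Qb Fb (b : Qb) * algebraMap F0 Fb RatFunc.X) = TateNF.tateNF t ∧
      Transcendental Qb t ∧ (C.u : Fb) ^ 2 ∈ adjoin Qb ({t} : Set Fb) ∧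
      x₀ ∈ adjoin Qb ({t} : Set Fb) ∧ algebraMap F0 Fb RatFunc.X ∈ adjoin Qb ({t} : Set Fb) ∧
      t ∈ adjoin Qb ({algebraMap F0 Fb RatFunc.X, x₀} : Set Fb) := by
  have hlamtr : Transcendental Qb (algebraMap F0 Fb RatFunc.X) := transcendental_X
  have hlam0 : algebraMap F0 Fb RatFunc.X ≠ 0 := (_root_.map_ne_zero _).mpr RatFunc.X_ne_zero
  have haQ : (a : Qb) ≠ 0 := Rat.cast_ne_zero.mpr ha
  have hbQ : (b : Qb) ≠ 0 := Rat.cast_ne_zero.mpr hb
  obtain ⟨C, t, hr, ht', ht, hC⟩ := TateNF.exists_tateNF _ h₀ hP₀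
  replace hC : C • EParamCore.short (algebraMap Qb Fb (a : Qb) * algebraMap F0 Fb RatFunc.X)
      (algebraMap Qb Fb (b : Qb) * algebraMap F0 Fb RatFunc.X) = TateNF.tateNF t := by
    rw [← genW_baseChange]
    exact hC
  refine ⟨C, t, hr, ht, ?_, hC, EParam.transcendental_t hr ht' hC haQ hbQ hlam0 hlamtr,
    EParam.u_sq_mem hr ht' hC haQ hbQ hlam0, EParam.x_mem hr ht' hC haQ hbQ hlam0,
    EParam.lam_mem hr ht' hC haQ hbQ hlam0, EParam.t_mem hr ht' ht hC⟩
  have hΔ := congrArg WeierstrassCurve.Δ hC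
  rw [WeierstrassCurve.variableChange_Δ, TateNF.tateNF_Δ] at hΔ
  intro h0
  rw [h0, mul_zero] at hΔ
  exact mul_ne_zero (pow_ne_zero _ (C.u⁻¹).ne_zero) (short_Δ_ne_zero a b ha) hΔ

/-- **Tate data**, short form (without `t ∈ Qb(X, x₀)`). -/
theorem exists_tateData (a b : ℚ) (ha : a ≠ 0) (hb : b ≠ 0) {x₀ y₀ : Fb}
    (h₀ : ((genW (lamC a) (lamC b)).toAffine⁄Fb).Nonsingular x₀ y₀)
    (hP₀ : addOrderOf
      (Point.some x₀ y₀ h₀ : ((genW (lamC a) (lamC b)).toAffine⁄Fb).Point) = 5) :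
    ∃ (C : VariableChange Fb) (t : Fb), C.r = x₀ ∧ t ≠ 0 ∧ t ^ 2 - 11 * t - 1 ≠ 0 ∧
      C • EParamCore.short (algebraMap Qb Fb (a : Qb) * algebraMap F0 Fb RatFunc.X)
        (algebraMap Qb Fb (b : Qb) * algebraMap F0 Fb RatFunc.X) = TateNF.tateNF t ∧
      Transcendental Qb t ∧ (C.u : Fb) ^ 2 ∈ adjoin Qb ({t} : Set Fb) ∧
      x₀ ∈ adjoin Qb ({t} : Set Fb) ∧ algebraMap F0 Fb RatFunc.X ∈ adjoin Qb ({t} : Set Fb) := by
  obtain ⟨C, t, h1, h2, h3, h4, h5, h6, h7, h8, -⟩ := exists_tateData' a b ha hb h₀ hP₀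
  exact ⟨C, t, h1, h2, h3, h4, h5, h6, h7, h8⟩

omit [Algebra F0 Fb] [Algebra Qb Fb] [CharZero Fb] [DecidableEq Fb] in
/-- Transport of a root of `psi_3` of a short Weierstrass curve to its Tate normal form. -/
theorem root_transport {A B : Fb} {C : VariableChange Fb} {t : Fb}
    (hC : C • EParamCore.short A B = TateNF.tateNF t) {x : Fb}
    (hroot : 3 * x ^ 4 + 6 * A * x ^ 2 + 12 * B * x - A ^ 2 = 0) :
    tatePsi3 t ((x - C.r) / (C.u : Fb) ^ 2) = 0 := by
  have hu0 : (C.u : Fb) ^ 2 ≠ 0 := pow_ne_zero _ C.u.ne_zero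
  have hxx' : (C.u : Fb) ^ 2 * ((x - C.r) / (C.u : Fb) ^ 2) + C.r = x := by
    field_simp
    ring
  have h1 := Fermat.Agent.SW.K1I.Twist.psi3_variableChange (EParamCore.short A B) C
    ((x - C.r) / (C.u : Fb) ^ 2)
  rw [hC, psi3_tateNF, hxx'] at h1
  have h2 : psi3 (EParamCore.short A B).toAffine x = 0 := by
    have := Fermat.Agent.SW.K1I.Twist.psi3_shortW A B x
    rw [hroot] at this
    exact this
  rw [h1, h2, mul_zero]

end TateData

/-- **Leaf I (GENERIC MOD-3)** from the input `LeafE5x` of leaf E. -/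
theorem leafI_of_E5x (hE : LeafE5x) : LeafI := by
  intro Fb _ _ _ _ _ _ a b ha hb hab x hx hroot
  rw [algebraMap_lamC, algebraMap_lamC] at hroot
  obtain ⟨P₀, hP₀, hE5⟩ := hE Fb a b ha hb hab
  obtain ⟨x₀, y₀, h₀, rfl⟩ := exists_some_of_order_five P₀ hP₀
  have hxOf : xOf (Point.some x₀ y₀ h₀ : ((genW (lamC a) (lamC b)).toAffine⁄Fb).Point) = x₀ := rfl
  rw [hxOf] at hE5
  obtain ⟨C, t, hr, ht, hD, hC, htr, hu2, hx0, hlamT⟩ := exists_tateData a b ha hb h₀ hP₀
  set T : IntermediateField Qb Fb := adjoin Qb ({t} : Set Fb) with hT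
  have htT : t ∈ T := subset_adjoin Qb _ (by simp)
  -- the root of `psi_3 (tateNF t)`
  have hx'root := root_transport hC hroot
  rw [hr] at hx'root
  obtain ⟨x', hx'⟩ : ∃ x' : Fb, x' = (x - x₀) / (C.u : Fb) ^ 2 := ⟨_, rfl⟩
  rw [← hx'] at hx'root
  -- every `σ ∈ Gal(Fb / T)` fixes `x'`
  have hfix : ∀ σ : Fb ≃ₐ[T] Fb, σ x' = x' := by
    intro σ
    have hσT : ∀ z ∈ T, σ z = z := fun z hz => σ.commutes ⟨z, hz⟩
    have hF0 := algebraMap_mem_of_X_mem T hlamT
    let σ₀ : Fb ≃ₐ[F0] Fb := AlgEquiv.ofRingEquiv (f := σ.toRingEquiv)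
      (fun f => hσT _ (hF0 f))
    have hσ₀ : ∀ z : Fb, σ₀ z = σ z := fun z => rfl
    have hres : res Fb σ₀ = 1 :=
      res_unique σ₀ 1 fun z => by
        rw [hσ₀, hσT _ (T.algebraMap_mem z)]
        rfl
    have h5x := hE5 σ₀ hres (by rw [hσ₀]; exact hσT _ hx0) x hx
    simp only [hσ₀] at h5x
    have h5 : (⇑σ)^[5] x' = x' := by
      simp only [Function.iterate_succ, Function.iterate_zero, Function.comp_apply, id_eq]
      rw [hx']
      simp only [map_div₀, map_sub, hσT _ hx0, hσT _ hu2, h5x]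
    have hS : ((psi3Poly (TateNF.tateNF t).toAffine).roots.toFinset).card ≤ 4 :=
      (Multiset.toFinset_card_le _).trans ((Polynomial.card_roots' _).trans
        (natDegree_psi3Poly _).le)
    refine fixed_of_iterate_five (⇑σ) x' _ hS (fun n => ?_) h5
    rw [Multiset.mem_toFinset, Polynomial.mem_roots (psi3Poly_ne_zero _), IsRoot.def,
      eval_psi3Poly, psi3_tateNF]
    exact tatePsi3_iterate σ.toRingEquiv t x' (hσT _ htT) hx'root n
  exact tatePsi3_ne_zero_of_mem_adjoin htr (mem_of_forall_fixed T hlamT x' hfix) hx'root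

/-- The strong form implies the weak form. -/
theorem leafE5x_of_E5 (hE : LeafE5) : LeafE5x := by
  intro Fb _ _ _ _ _ _ a b ha hb hab
  obtain ⟨P₀, hP₀⟩ := exists_point_of_order_five Fb a b ha
  exact ⟨P₀, hP₀, hE Fb a b ha hb hab P₀ hP₀⟩

/-- **Leaf I (GENERIC MOD-3)** from the input `LeafE5` of leaf E. -/
theorem leafI_of_E5 (hE : LeafE5) : LeafI := leafI_of_E5x (leafE5x_of_E5 hE)

/-! ### The Kummer form -/

/-- The fixed field of an automorphism. -/
def fixedIF {k L : Type*} [Field k] [Field L] [Algebra k L] (τ : L ≃ₐ[k] L) :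
    IntermediateField k L where
  carrier := {z | τ z = z}
  mul_mem' := fun {x y} (hx : τ x = x) (hy : τ y = y) =>
    show τ (x * y) = x * y by rw [map_mul, hx, hy]
  add_mem' := fun {x y} (hx : τ x = x) (hy : τ y = y) =>
    show τ (x + y) = x + y by rw [map_add, hx, hy]
  algebraMap_mem' := fun c => τ.commutes c
  inv_mem' := fun x (hx : τ x = x) => show τ x⁻¹ = x⁻¹ by rw [map_inv₀, hx]

theorem fixes_adjoin {k L : Type*} [Field k] [Field L] [Algebra k L] (τ : L ≃ₐ[k] L) (S : Set L)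
    (hS : ∀ s ∈ S, τ s = s) : ∀ z ∈ IntermediateField.adjoin k S, τ z = z := by
  have hle : IntermediateField.adjoin k S ≤ fixedIF τ :=
    IntermediateField.adjoin_le_iff.mpr fun s hs => hS s hs
  exact fun z hz => hle hz

/-- An element of an extension of an algebraically closed field which is algebraic is a
constant. -/
theorem exists_algebraMap_eq_of_isAlgebraic {k L : Type*} [Field k] [Field L] [Algebra k L]
    [IsAlgClosed k] {w : L} (hw : IsAlgebraic k w) : ∃ c : k, algebraMap k L c = w := by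
  have halg : Algebra.IsAlgebraic k k⟮w⟯ := isAlgebraic_adjoin_simple hw.isIntegral
  have hbot : k⟮w⟯ = ⊥ := IntermediateField.eq_bot_of_isAlgClosed_of_isAlgebraic k⟮w⟯
  have hmem : w ∈ (⊥ : IntermediateField k L) := hbot ▸ mem_adjoin_simple_self k w
  exact IntermediateField.mem_bot.mp hmem

/-- Kummer: if `τ` fixes `r ^ 5` and the constants are algebraically closed, then `τ⁵ r = r`. -/
theorem iterate_five_eq_of_pow_five {k L : Type*} [Field k] [Field L] [Algebra k L]
    [IsAlgClosed k] (τ : L ≃ₐ[k] L) (r : L) (h : τ (r ^ 5) = r ^ 5) :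
    τ (τ (τ (τ (τ r)))) = r := by
  by_cases hr : r = 0
  · simp [hr]
  have hζ5 : (τ r / r) ^ 5 = 1 := by
    rw [div_pow, ← map_pow, h, div_self (pow_ne_zero _ hr)]
  have halg : IsAlgebraic k (τ r / r) := by
    refine ⟨Polynomial.X ^ 5 - 1, Polynomial.X_pow_sub_C_ne_zero (by norm_num) 1, ?_⟩
    simp [hζ5]
  obtain ⟨c, hc⟩ := exists_algebraMap_eq_of_isAlgebraic halg
  have hτr : τ r = algebraMap k L c * r := by
    rw [hc, div_mul_cancel₀ _ hr]
  have hc5 : algebraMap k L c ^ 5 = 1 := by rw [hc, hζ5]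
  simp only [hτr, map_mul, AlgEquiv.commutes]
  linear_combination (r) * hc5

/-- **The Kummer form implies the weak form.** -/
theorem leafE5x_of_K (hE : LeafE5K) : LeafE5x := by
  intro Fb _ _ _ _ _ _ a b ha hb hab
  obtain ⟨P₀, r, hP₀, hr5, hΩ⟩ := hE Fb a b ha hb hab
  refine ⟨P₀, hP₀, fun σ hres hx₀ z hz => ?_⟩
  -- `σ` as an automorphism over the constants
  let τ : Fb ≃ₐ[Qb] Fb := AlgEquiv.ofRingEquiv (f := σ.toRingEquiv) (fun c => by
    have := algebraMap_res σ c
    rw [hres] at this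
    exact this.symm)
  have hτ : ∀ w : Fb, τ w = σ w := fun w => rfl
  have h1 : τ (r ^ 5) = r ^ 5 := by
    refine fixes_adjoin τ _ ?_ _ hr5
    rintro s (rfl | rfl)
    · rw [hτ]
      exact σ.commutes RatFunc.X
    · rw [hτ]
      exact hx₀
  have h2 := iterate_five_eq_of_pow_five τ r h1
  have h3 : (τ * τ * τ * τ * τ) r = r := by
    simp only [AlgEquiv.mul_apply]
    exact h2
  have h4 := fixes_adjoin (τ * τ * τ * τ * τ) {r} (by rintro s rfl; exact h3) z (hΩ z hz)
  simp only [AlgEquiv.mul_apply, hτ] at h4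
  exact h4

/-- **Leaf I (GENERIC MOD-3)** from the Kummer form `LeafE5K` (Lüroth route). -/
theorem leafI_of_E5K (hE : LeafE5K) : LeafI := leafI_of_E5x (leafE5x_of_K hE)

end Fermat.Agent.SW.LeafI.Main
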