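import Mathlib
import Fermat.Agent.SW.LeafI.Main
import Fermat.Agent.SW.K1c.ELeaf
import Fermat.Agent.SW.K1I.Degree

/-!
# MOONSHOT S52 (Program F), block K1, leaf I (GENERIC MOD-3) on the genus-zero route

`leafI_of_ECore2 : EContract.ECore2 → Leaves.LeafI` : the literal leaf I from the function-field
input `ECore2` ("an element of `Fb` fixed by the inertia groups of all places of `Fb / k(t)` lies in
`k(t)`") ALONE — no `EOmega`, no `ECore1`.

Proof.  Tate data `(C, t)` of a point of order five of the generic curve (`LeafI.Main`):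
`Ω ⊆ Mfield Qb t = Qb(t, X(tateNF t [5]))` because `x = u² X + x₀` on points and `X, x₀, u² ∈ Qb(t)`;
a root `x ∈ Ω` of `psi_3` gives the root `x' = (x - x₀) / u² ∈ Mfield Qb t` of the quartic
`psi3Poly (tateNF t)` over `Qb(t)`; by `ELeaf.descend_of` (from `ECore2` and `Unram`), `x' ∈ Qb(t)`,
contradicting `K1i.TatePsi3.tatePsi3_ne_zero_of_mem_adjoin`.

Branch-only work.
-/

set_option autoImplicit false

open Polynomial IntermediateField WeierstrassCurve WeierstrassCurve.Affine

namespace Fermat.Agent.SW.LeafI.Genus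

open Fermat.Agent.SW.Contracts Fermat.Agent.SW.K1 Fermat.Agent.SW.K1.Leaves
open Fermat.Agent.SW.K1c Fermat.Agent.SW.K1i.TatePsi3 Fermat.Agent.S51.Three
open Fermat.Agent.SW.LeafI.Main Fermat.Agent.LR.VarChangePoint

/-- `x`-coordinates of `5`-torsion points through a change of variables: if the `X`-coordinates of
the `5`-torsion of `W' = C • W` lie in a field `K ∋ u², r`, so do those of `W`. -/
theorem xOf_mem_of_variableChange {k Fb : Type*} [Field k] [Field Fb] [Algebra k Fb]
    [DecidableEq Fb] {W W' : WeierstrassCurve Fb} (C : VariableChange Fb) (hC : C • W = W')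
    (K : IntermediateField k Fb) (hu : (C.u : Fb) ^ 2 ∈ K) (hr : C.r ∈ K)
    (hX : ∀ Q : W'.toAffine.Point, 5 • Q = 0 → EGal.xCoord Q ∈ K) (P : W.toAffine.Point)
    (hP : 5 • P = 0) : xOf P ∈ K := by
  subst hC
  cases P with
  | zero => exact K.zero_mem
  | some x y h =>
    have hQ : 5 • (Fermat.Agent.LR.VarChangePoint.pointEquiv W C).symm (Point.some x y h) = 0 := by
      rw [← map_nsmul, hP, map_zero]
    have h1 := hX _ hQ
    rw [Fermat.Agent.LR.VarChangePoint.pointEquiv_symm_some] at h1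
    change vcXinv C x ∈ K at h1
    have h2 : x = (C.u : Fb) ^ 2 * vcXinv C x + C.r := (vcX_vcXinv C x).symm
    change x ∈ K
    rw [h2]
    exact K.add_mem (K.mul_mem hu h1) hr

/-- **Leaf I (GENERIC MOD-3)** from `ECore2` alone. -/
theorem leafI_of_ECore2 (h2 : EContract.ECore2) : LeafI := by
  intro Fb _ _ _ _ _ _ a b ha hb hab x hx hroot
  have hAC : IsAlgClosed Fb := IsAlgClosure.isAlgClosed F0
  rw [algebraMap_lamC, algebraMap_lamC] at hroot
  obtain ⟨P₀, hP₀⟩ := exists_point_of_order_five Fb a b ha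
  obtain ⟨x₀, y₀, h₀, rfl⟩ := exists_some_of_order_five P₀ hP₀
  obtain ⟨C, t, hr, ht, hD, hC, htr, hu2, hx0, hlamT⟩ := exists_tateData a b ha hb h₀ hP₀
  have hx'root := root_transport hC hroot
  -- `Qb(t) ≤ Mfield Qb t`
  have hTM : adjoin Qb ({t} : Set Fb) ≤ EGal.Mfield Qb t := by
    rw [adjoin_le_iff]
    rintro z rfl
    exact subset_adjoin Qb _ (Set.mem_insert _ _)
  -- `Ω ⊆ Mfield Qb t`
  have hΩM : ∀ z ∈ OmegaF Fb (lamC a) (lamC b) 5, z ∈ EGal.Mfield Qb t := by
    have hF0 := algebraMap_mem_of_X_mem (EGal.Mfield Qb t) (hTM hlamT)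
    let M' : IntermediateField F0 Fb :=
      Subfield.toIntermediateField (EGal.Mfield Qb t).toSubfield hF0
    have hle : OmegaF Fb (lamC a) (lamC b) 5 ≤ M' := by
      rw [OmegaF, adjoin_le_iff]
      rintro z (⟨c, rfl⟩ | ⟨P, rfl⟩)
      · exact (EGal.Mfield Qb t).algebraMap_mem c
      · have hP5 : 5 • (P : ((genW (lamC a) (lamC b)).toAffine⁄Fb).Point) = 0 := by
          have := P.2
          rw [Submodule.mem_torsionBy_iff, natCast_zsmul] at this
          exact this
        have hC' : C • ((genW (lamC a) (lamC b)).toAffine⁄Fb) = TateNF.tateNF t := by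
          rw [genW_baseChange]
          exact hC
        refine xOf_mem_of_variableChange C hC' (EGal.Mfield Qb t) (hTM hu2)
          (by rw [hr]; exact hTM hx0) (fun Q hQ => ?_) _ hP5
        exact subset_adjoin Qb _ (Set.mem_insert_of_mem _ ⟨Q, hQ, rfl⟩)
    exact fun z hz => hle hz
  -- `x' ∈ Mfield Qb t`
  have hx'M : (x - C.r) / (C.u : Fb) ^ 2 ∈ EGal.Mfield Qb t :=
    (EGal.Mfield Qb t).div_mem ((EGal.Mfield Qb t).sub_mem (hΩM x hx)
      (by rw [hr]; exact hTM hx0)) (hTM hu2)
  -- the quartic over `Qb(t)`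
  have halg : ∀ z : Fb, IsAlgebraic ↥Qb⟮t⟯ z := by
    have := isAlgebraic_of_X_mem (adjoin Qb ({t} : Set Fb)) hlamT
    exact fun z => this.isAlgebraic z
  have hp : aeval ((x - C.r) / (C.u : Fb) ^ 2)
      (psi3Poly (TateNF.tateNF (EGal.tT Qb t)).toAffine) = 0 := by
    rw [Fermat.Agent.SW.K1I.Degree.aeval_psi3Poly]
    have : (TateNF.tateNF (EGal.tT Qb t)).map (algebraMap ↥Qb⟮t⟯ Fb) = TateNF.tateNF t :=
      EGal.baseChange_tateNF t
    rw [this, psi3_tateNF]
    exact hx'root
  have hmem := ELeaf.descend_of h2 ht hD htr halg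
    (psi3Poly (TateNF.tateNF (EGal.tT Qb t)).toAffine) (psi3Poly_ne_zero _)
    (natDegree_psi3Poly _).le hx'M hp
  exact tatePsi3_ne_zero_of_mem_adjoin htr hmem hx'root

end Fermat.Agent.SW.LeafI.Genus
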